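import Fermat.Agent.A2.Alg.H34.Base

/-!
# WALL A2 / ALG — chart facts (helper132)

`B ⊆ F` the chart of `ChartCtx` (integral closure of `R[x]` in `F`), `R` a discrete valuation ring
with uniformiser `w`.

* `dimensionLEOne_of_polynomial_integral` : a domain integral over `R[X]` in which a maximal ideal
  `I` of `R` dies has Krull dimension `≤ 1` (it is integral over `(R ⧸ I)[X]`).
* `isIntegral_aeval_chart` : the chart is integral over `R[X]` (via `X ↦ x`).
* `dimensionLEOne_chart_quotient` : `B ⧸ p` has dimension `≤ 1` for every prime `p ∋ w`.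
* `isDedekindDomain_chart_quotient` : `B ⧸ p` is a Dedekind domain if moreover it is integrally
  closed (the components of an `SSChart`).
* `algebraMap_mem_of_chart_le` : a valuation ring of `F` containing `B` and `w⁻¹` contains `E`.
* `hdiv_of_divisibleDiv` : the hypothesis `hdiv` of `H609.exists_pureAt_node` from `DivisibleDiv`.
-/

set_option autoImplicit false
set_option linter.unusedSectionVars false
set_option linter.style.haveILetI false

namespace Fermat.Agent.A2.Alg.H132

open Fermat.Agent.A2 Fermat.Agent.A2.Alg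
open Polynomial

section Abstract

/-- A domain `D` which is integral over `R[X]` and in which a maximal ideal `I` of `R` dies has
Krull dimension `≤ 1`. -/
theorem dimensionLEOne_of_polynomial_integral {R : Type*} [CommRing R] {D : Type*} [CommRing D]
    [IsDomain D] (I : Ideal R) [hI : I.IsMaximal] (ψ : R[X] →+* D) (hψ : ψ.IsIntegral)
    (hψI : ∀ r ∈ I, ψ (C r) = 0) : Ring.DimensionLEOne D := by
  letI : Field (R ⧸ I) := Ideal.Quotient.field I
  let φ₁ : (R ⧸ I) →+* D := Ideal.Quotient.lift I (ψ.comp C) (fun r hr => hψI r hr)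
  let g : (R ⧸ I)[X] →+* D := eval₂RingHom φ₁ (ψ X)
  have hcomp : g.comp (mapRingHom (Ideal.Quotient.mk I)) = ψ := by
    refine Polynomial.ringHom_ext (fun r => ?_) ?_
    · simp [g, φ₁]
    · simp [g]
  have hg : g.IsIntegral := by
    refine RingHom.IsIntegral.tower_top (mapRingHom (Ideal.Quotient.mk I)) g ?_
    rw [hcomp]
    exact hψ
  letI : Algebra (R ⧸ I)[X] D := g.toAlgebra
  haveI : Algebra.IsIntegral (R ⧸ I)[X] D := ⟨fun d => hg d⟩
  exact Ring.DimensionLEOne.of_isIntegral (R ⧸ I)[X] D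

end Abstract

section Chart

variable {R F : Type*} [CommRing R] [Field F] [Algebra R F]

/-- The chart is integral over `R[X]`. -/
theorem isIntegral_aeval_chart (x : F) (B : Subalgebra R F)
    (hB : ∀ f : F, f ∈ B ↔ IsIntegral (Algebra.adjoin R ({x} : Set F)) f) (hx : x ∈ B) :
    ((aeval (⟨x, hx⟩ : B) : R[X] →ₐ[R] B) : R[X] →+* B).IsIntegral := by
  intro b
  have hb : IsIntegral (Algebra.adjoin R ({x} : Set F)) (b : F) := (hB b).1 b.2
  obtain ⟨P, hP, hPb⟩ := hb
  -- the surjection `R[X] → R[x]`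
  let xA : Algebra.adjoin R ({x} : Set F) := ⟨x, Algebra.subset_adjoin (Set.mem_singleton x)⟩
  let θ : R[X] →+* Algebra.adjoin R ({x} : Set F) := (aeval xA : R[X] →ₐ[R] _)
  have hθ : Function.Surjective θ := by
    rintro ⟨a, ha⟩
    rw [Algebra.adjoin_singleton_eq_range_aeval] at ha
    obtain ⟨Q, rfl⟩ := ha
    refine ⟨Q, Subtype.ext ?_⟩
    show ((aeval xA Q : Algebra.adjoin R ({x} : Set F)) : F) = aeval x Q
    rw [← Subalgebra.coe_val, ← aeval_algHom_apply]
    rfl
  have hlift : P ∈ Polynomial.lifts θ := by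
    rw [Polynomial.mem_lifts]
    exact Polynomial.map_surjective θ hθ P
  obtain ⟨Q, hQP, -, hQ⟩ := Polynomial.lifts_and_degree_eq_and_monic hlift hP
  refine ⟨Q, hQ, ?_⟩
  apply Subtype.val_injective
  show (B.val : B →+* F) (eval₂ _ b Q) = (B.val : B →+* F) 0
  rw [map_zero, Polynomial.hom_eval₂]
  have hcomp : (B.val : B →+* F).comp ((aeval (⟨x, hx⟩ : B) : R[X] →ₐ[R] B) : R[X] →+* B)
      = (algebraMap (Algebra.adjoin R ({x} : Set F)) F).comp θ := by
    refine Polynomial.ringHom_ext (fun r => ?_) ?_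
    · simp [θ]
    · simp [θ, xA]
  rw [hcomp, ← Polynomial.eval₂_map, hQP]
  exact hPb

theorem coord_mem_chart (x : F) (B : Subalgebra R F)
    (hB : ∀ f : F, f ∈ B ↔ IsIntegral (Algebra.adjoin R ({x} : Set F)) f) : x ∈ B := by
  rw [hB]
  exact isIntegral_algebraMap
    (x := (⟨x, Algebra.subset_adjoin (Set.mem_singleton x)⟩ : Algebra.adjoin R ({x} : Set F)))

end Chart

section Quot

variable {R F : Type*} [CommRing R] [IsDomain R] [IsDiscreteValuationRing R]
  [Field F] [Algebra R F]

/-- `B ⧸ p` has Krull dimension `≤ 1` for every prime `p ∋ w` of the chart. -/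
theorem dimensionLEOne_chart_quotient (w : R) (hw : Irreducible w) (x : F) (B : Subalgebra R F)
    (hB : ∀ f : F, f ∈ B ↔ IsIntegral (Algebra.adjoin R ({x} : Set F)) f)
    (p : Ideal B) [p.IsPrime] (hwp : algebraMap R B w ∈ p) : Ring.DimensionLEOne (B ⧸ p) := by
  have hx : x ∈ B := coord_mem_chart x B hB
  refine dimensionLEOne_of_polynomial_integral (IsLocalRing.maximalIdeal R)
    ((Ideal.Quotient.mk p).comp ((aeval (⟨x, hx⟩ : B) : R[X] →ₐ[R] B) : R[X] →+* B)) ?_ ?_
  · exact RingHom.IsIntegral.trans _ _ (isIntegral_aeval_chart x B hB hx)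
      (RingHom.isIntegral_of_surjective _ Ideal.Quotient.mk_surjective)
  · intro r hr
    rw [hw.maximalIdeal_eq, Ideal.mem_span_singleton] at hr
    obtain ⟨s, rfl⟩ := hr
    rw [RingHom.comp_apply, Ideal.Quotient.eq_zero_iff_mem]
    have h : ((aeval (⟨x, hx⟩ : B) : R[X] →ₐ[R] B) : R[X] →+* B) (C (w * s))
        = algebraMap R B w * algebraMap R B s := by
      simp
    rw [h]
    exact p.mul_mem_right _ hwp

end Quot

section Ctx

variable {R E F : Type*} [CommRing R] [IsDomain R] [IsDiscreteValuationRing R]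
  [Field E] [Algebra R E] [IsFractionRing R E]
  [Field F] [Algebra E F] [Algebra R F] [IsScalarTower R E F]

/-- `B ⧸ p` is a Dedekind domain for every prime `p ∋ w` of the chart with `B ⧸ p` integrally
closed. -/
theorem isDedekindDomain_chart_quotient [CharZero E] (w : R) (x : F) (B : Subalgebra R F)
    (hC : ChartCtx E w x B) (p : Ideal B) [p.IsPrime] (hwp : algebraMap R B w ∈ p)
    (hn : IsIntegrallyClosed (B ⧸ p)) : IsDedekindDomain (B ⧸ p) := by
  obtain ⟨hnoeth, -, -⟩ := Fermat.Agent.A2.Alg.H34.chart_instances' w x B hC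
  haveI := hnoeth
  haveI := hn
  haveI : Ring.DimensionLEOne (B ⧸ p) := dimensionLEOne_chart_quotient w hC.hw x B hC.hB p hwp
  haveI h1 : IsDomain (B ⧸ p) := inferInstance
  haveI h2 : IsNoetherianRing (B ⧸ p) := inferInstance
  haveI h3 : IsIntegrallyClosed (B ⧸ p) := inferInstance
  haveI h4 : IsDedekindRing (B ⧸ p) := { }
  have h : IsDedekindDomain (B ⧸ p) := { }
  exact h

theorem uniformiser_mem_p₁ {w : R} {B : Subalgebra R F} (c : SSChart w B) :
    algebraMap R B w ∈ c.p₁ := by
  have h : algebraMap R B w ∈ c.p₁ ⊓ c.p₂ := by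
    rw [c.inf_eq]
    exact Ideal.mem_span_singleton_self _
  exact h.1

theorem uniformiser_mem_p₂ {w : R} {B : Subalgebra R F} (c : SSChart w B) :
    algebraMap R B w ∈ c.p₂ := by
  have h : algebraMap R B w ∈ c.p₁ ⊓ c.p₂ := by
    rw [c.inf_eq]
    exact Ideal.mem_span_singleton_self _
  exact h.2

/-- The first component of a semistable chart is a Dedekind scheme. -/
theorem isDedekindDomain_quotient_p₁ [CharZero E] (w : R) (x : F) (B : Subalgebra R F)
    (hC : ChartCtx E w x B) (c : SSChart w B) :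
    haveI := c.prime₁
    IsDedekindDomain (B ⧸ c.p₁) :=
  haveI := c.prime₁
  isDedekindDomain_chart_quotient w x B hC c.p₁ (uniformiser_mem_p₁ c) c.normal₁

/-- The second component of a semistable chart is a Dedekind scheme. -/
theorem isDedekindDomain_quotient_p₂ [CharZero E] (w : R) (x : F) (B : Subalgebra R F)
    (hC : ChartCtx E w x B) (c : SSChart w B) :
    haveI := c.prime₂
    IsDedekindDomain (B ⧸ c.p₂) :=
  haveI := c.prime₂
  isDedekindDomain_chart_quotient w x B hC c.p₂ (uniformiser_mem_p₂ c) c.normal₂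

/-- A valuation ring of `F` containing the chart `B` and `w⁻¹` contains `E`. -/
theorem algebraMap_mem_of_chart_le (w : R) (hw : Irreducible w) (B : Subalgebra R F)
    (V : ValuationSubring F) (hBV : ∀ b : B, (b : F) ∈ V) (hwV : (algebraMap R F w)⁻¹ ∈ V)
    (e : E) : algebraMap E F e ∈ V := by
  have hRV : ∀ r : R, algebraMap R F r ∈ V := fun r => hBV (algebraMap R B r)
  obtain ⟨a, b, hb, rfl⟩ := IsFractionRing.div_surjective (A := R) e
  have hb0 : b ≠ 0 := nonZeroDivisors.ne_zero hb
  obtain ⟨n, ε, hε⟩ := IsDiscreteValuationRing.eq_unit_mul_pow_irreducible hb0 hw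
  have hinj : Function.Injective (algebraMap R F) := by
    rw [IsScalarTower.algebraMap_eq R E F]
    exact (algebraMap E F).injective.comp (IsFractionRing.injective R E)
  have hwF : algebraMap R F w ≠ 0 := fun h =>
    hw.ne_zero (hinj (by rw [h, map_zero]))
  have hεF : algebraMap R F (ε : R) * algebraMap R F ((ε⁻¹ : Rˣ) : R) = 1 := by
    rw [← map_mul, Units.mul_inv, map_one]
  have hεF0 : algebraMap R F (ε : R) ≠ 0 := left_ne_zero_of_mul_eq_one hεF
  have key : algebraMap E F (algebraMap R E a / algebraMap R E b)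
      = algebraMap R F a * algebraMap R F ((ε⁻¹ : Rˣ) : R) * ((algebraMap R F w)⁻¹) ^ n := by
    rw [map_div₀, ← IsScalarTower.algebraMap_apply, ← IsScalarTower.algebraMap_apply, hε,
      map_mul, map_pow, inv_pow]
    have h1 : algebraMap R F ((ε⁻¹ : Rˣ) : R) = (algebraMap R F (ε : R))⁻¹ :=
      eq_inv_of_mul_eq_one_right hεF
    rw [h1]
    field_simp
  rw [key]
  exact mul_mem (mul_mem (hRV a) (hRV _)) (pow_mem hwV n)

/-- The hypothesis `hdiv` of `H609.exists_pureAt_node` from `DivisibleDiv`. -/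
theorem hdiv_of_divisibleDiv (w : R) (hw : Irreducible w) (B : Subalgebra R F) (m : ℕ) (u : F)
    (hdiv : DivisibleDiv E m u) :
    ∀ V : ValuationSubring F, IsDiscreteValuationRing V →
      (∀ b : B, algebraMap B F b ∈ V) → (algebraMap B F (algebraMap R B w))⁻¹ ∈ V →
      ∃ h u₀ : F, u₀ ∈ V ∧ u₀⁻¹ ∈ V ∧ u = u₀ * h ^ m := by
  intro V hV hBV hwV
  obtain ⟨h, u₀, -, hu₀, hu₀', hu⟩ := hdiv V hV
    (algebraMap_mem_of_chart_le w hw B V hBV hwV)
  exact ⟨h, u₀, hu₀, hu₀', hu⟩

/-- The hypothesis `hs` of `H609.exists_pureAt_node` from `ConstAt`. -/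
theorem hs_of_constAt (B : Subalgebra R F) (p : Ideal B) (u : F) (h : ConstAt B p u) :
    ∃ c a b : B, IsUnit c ∧ b ∉ p ∧ a - c * b ∈ p ∧
      u * algebraMap B F b = algebraMap B F a := by
  obtain ⟨c, hc, a, b, hb, hab, hu⟩ := h
  exact ⟨algebraMap R B c, a, b, hc.map _, hb, hab, hu⟩

end Ctx

end Fermat.Agent.A2.Alg.H132
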