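import Fermat.Agent.A2.H849.Hartogs
import Mathlib.RingTheory.Ideal.AssociatedPrime.Localization

/-!
# A2 / ALG (helper132): horizontal primes and the hypothesis (H1) of node purity

`B` a noetherian integrally closed domain with fraction field `F`.

* `isDiscreteValuationRing_locAt_of_height_one` : a nonzero prime `P` which contains no other
  nonzero prime has a discrete valuation ring `B_P`.
* `exists_isLocDVR_of_height_one` : the corresponding valuation subring of `F`.
* `exists_pow_eq_mul_of_isLocDVR` : if `g = u · h ^ m` with `u` a unit of `B_P` and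
  `u₀ = g · b ^ m ∈ B`, then `f ^ m = u₀ · r` with `f, r ∈ B`, `r ∉ P`
  (the hypothesis (H1) of `H609.exists_unit_mul_pow_of_node`).
-/

set_option autoImplicit false
set_option linter.unusedSectionVars false
set_option linter.style.haveILetI false

namespace Fermat.Agent.A2.Alg.H132

open Fermat.Agent.A2.H849

section Hor

variable {B : Type*} [CommRing B] [IsDomain B] [IsNoetherianRing B] [IsIntegrallyClosed B]
variable (F : Type*) [Field F] [Algebra B F] [IsFractionRing B F]

/-- A height-one prime of a noetherian integrally closed domain has a discrete valuation ring as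
localisation. -/
theorem isDiscreteValuationRing_locAt_of_height_one (P : Ideal B) [hP : P.IsPrime]
    (hP0 : P ≠ ⊥)
    (hht : ∀ Q : Ideal B, Q.IsPrime → Q ≠ ⊥ → Q ≤ P → Q = P) :
    IsDiscreteValuationRing (locAt F P) := by
  obtain ⟨a, haP, ha0⟩ := Submodule.exists_mem_ne_zero_of_ne_bot hP0
  have hmin : P ∈ (Ideal.span {a} : Ideal B).minimalPrimes := by
    refine ⟨⟨hP, (Ideal.span_singleton_le_iff_mem P).2 haP⟩, ?_⟩
    rintro Q ⟨hQ, hQa⟩ hQP
    have hQ0 : Q ≠ ⊥ := by
      intro h0
      have : a ∈ Q := (Ideal.span_singleton_le_iff_mem Q).1 hQa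
      rw [h0, Ideal.mem_bot] at this
      exact ha0 this
    exact (hht Q hQ hQ0 hQP).ge
  have hass : P ∈ associatedPrimes B (B ⧸ Ideal.span {a}) := by
    apply Module.associatedPrimes.minimalPrimes_annihilator_subset_associatedPrimes
    rw [Ideal.annihilator_quotient]
    exact hmin
  obtain ⟨-, y, hy⟩ := (isAssociatedPrime_iff (I := P) (M := B ⧸ Ideal.span {a})).1 hass
  obtain ⟨c, rfl⟩ := Ideal.Quotient.mk_surjective y
  have hcol : ∀ r, r ∈ P ↔ a ∣ r * c := by
    intro r
    rw [hy, Submodule.mem_colon_singleton, Submodule.mem_bot]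
    exact smul_mk_span_eq_zero_iff a r c
  exact isDiscreteValuationRing_locAt_of_colon P a c ha0 hcol

variable {F}

/-- The discrete valuation subring of `F` attached to a height-one prime. -/
theorem exists_isLocDVR_of_height_one (P : Ideal B) [hP : P.IsPrime] (hP0 : P ≠ ⊥)
    (hht : ∀ Q : Ideal B, Q.IsPrime → Q ≠ ⊥ → Q ≤ P → Q = P) :
    ∃ O : ValuationSubring F, IsLocDVR O P := by
  have hdvr := isDiscreteValuationRing_locAt_of_height_one F P hP0 hht
  exact ⟨_, isLocDVR_locValuationSubring P hdvr⟩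

theorem algebraMap_ne_zero' {b : B} (hb : b ≠ 0) : algebraMap B F b ≠ 0 := fun h0 =>
  hb (IsFractionRing.injective B F (by rw [h0, map_zero]))

/-- an element whose power lies in a valuation subring lies in it. -/
theorem mem_of_pow_mem_valuationSubring (O : ValuationSubring F) {z : F} {m : ℕ} (hm : m ≠ 0)
    (hz : z ^ m ∈ O) : z ∈ O := by
  rw [← O.valuation_le_one_iff] at hz ⊢
  rw [map_pow] at hz
  exact (pow_le_one_iff hm).1 hz

/-- **(H1) from divisibility at a horizontal prime.** -/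
theorem exists_pow_eq_mul_of_isLocDVR {O : ValuationSubring F} {P : Ideal B}
    (hO : IsLocDVR O P) {m : ℕ} (hm : m ≠ 0) {g h u : F} {u₀ b : B}
    (hu₀ : algebraMap B F u₀ = g * algebraMap B F b ^ m)
    (huO : u ∈ O) (huO' : u⁻¹ ∈ O) (hu0 : u ≠ 0) (hg : g = u * h ^ m) :
    ∃ f r : B, r ∉ P ∧ f ^ m = u₀ * r := by
  have hP := hO.prime
  have hinj : Function.Injective (algebraMap B F) := IsFractionRing.injective B F
  -- `z = h b` is integral at `P`
  have hz : (h * algebraMap B F b) ^ m ∈ O := by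
    have e : (h * algebraMap B F b) ^ m = algebraMap B F u₀ * u⁻¹ := by
      rw [hu₀, hg, mul_pow]
      field_simp
    rw [e]
    exact mul_mem (hO.le u₀) huO'
  have hzO := mem_of_pow_mem_valuationSubring O hm hz
  obtain ⟨f₁, s₁, hs₁, hz1⟩ := hO.exists_frac _ hzO
  obtain ⟨r₁, r₂, hr₂, hu1⟩ := hO.exists_frac _ huO'
  have hs₁0 : s₁ ≠ 0 := fun h0 => hs₁ (h0 ▸ P.zero_mem)
  have hr₂0 : r₂ ≠ 0 := fun h0 => hr₂ (h0 ▸ P.zero_mem)
  have hs₁F : algebraMap B F s₁ ≠ 0 := algebraMap_ne_zero' hs₁0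
  have hr₂F : algebraMap B F r₂ ≠ 0 := algebraMap_ne_zero' hr₂0
  have hr₁0 : r₁ ≠ 0 := by
    rintro rfl
    rw [map_zero, zero_mul] at hu1
    exact hu0 (inv_eq_zero.1 hu1)
  have hr₁F : algebraMap B F r₁ ≠ 0 := algebraMap_ne_zero' hr₁0
  have hr₁ : r₁ ∉ P := by
    intro hmem
    apply hO.inv_not_mem r₁ hmem hr₁0
    have e : (algebraMap B F r₁)⁻¹ = u * (algebraMap B F r₂)⁻¹ := by
      have : u = (algebraMap B F r₁ * (algebraMap B F r₂)⁻¹)⁻¹ := by rw [← hu1, inv_inv]
      rw [this]
      field_simp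
    rw [e]
    exact mul_mem huO (hO.inv_mem r₂ hr₂)
  obtain ⟨k, rfl⟩ : ∃ k, m = k + 1 := Nat.exists_eq_succ_of_ne_zero hm
  refine ⟨f₁ * r₂, r₁ * s₁ ^ (k + 1) * r₂ ^ k, ?_, ?_⟩
  · intro hmem
    rcases hP.mem_or_mem hmem with h1 | h1
    · rcases hP.mem_or_mem h1 with h2 | h2
      · exact hr₁ h2
      · exact hs₁ (hP.mem_of_pow_mem _ h2)
    · exact hr₂ (hP.mem_of_pow_mem _ h1)
  · apply hinj
    have e1 : (h * algebraMap B F b) ^ (k + 1) = algebraMap B F u₀ * u⁻¹ := by
      rw [hu₀, hg, mul_pow]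
      field_simp
    rw [hz1, hu1] at e1
    simp only [map_mul, map_pow]
    have e2 : (algebraMap B F f₁) ^ (k + 1) * algebraMap B F r₂ =
        algebraMap B F u₀ * algebraMap B F r₁ * (algebraMap B F s₁) ^ (k + 1) := by
      rw [mul_pow, inv_pow] at e1
      field_simp at e1
      linear_combination e1
    rw [mul_pow, pow_succ (algebraMap B F r₂) k]
    linear_combination (algebraMap B F r₂) ^ k * e2

end Hor

end Fermat.Agent.A2.Alg.H132
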