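import Fermat.Agent.A2.Alg.H132.ChartFacts
import Fermat.Agent.A2.Alg.H34.Asm
import Fermat.Agent.A2.H609.ChartNode

/-!
# WALL A2 / ALG — leaf P-N `PurityNodeLeaf`, VERBATIM (helper132)

`purityNodeLeaf : H34.PurityNodeLeaf` (the frozen `Prop` of `Alg/H34/Asm.lean`), from

* `H609.exists_pureAt_node` (purity at a crossing point of a semistable chart, helper609),
* `H34.chart_instances'` (the chart is a noetherian integrally closed domain, helper34),
* the chart facts of `Alg/H132/ChartFacts.lean` (the components are Dedekind; `hdiv`; `hs`).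

The separating coordinate `SepCoord` is NOT used.
-/

set_option autoImplicit false
set_option linter.unusedSectionVars false
set_option linter.style.haveILetI false

namespace Fermat.Agent.A2.Alg.H132

open Fermat.Agent.A2 Fermat.Agent.A2.Alg

/-- **Leaf P-N**: purity at a crossing point of a semistable chart. -/
theorem purityNodeLeaf : Fermat.Agent.A2.Alg.H34.PurityNodeLeaf := by
  intro R E F _ _ _ _ _ _ _ _ _ _ _ _ _ q m hq hqR hm hqm w x B hC c hinc hsep u hu hdiv hs n hn
    hwn h₁ h₂
  obtain ⟨hnoeth, hic, hfr⟩ := Fermat.Agent.A2.Alg.H34.chart_instances' w x B hC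
  haveI := hnoeth
  haveI := hic
  haveI := hfr
  haveI := c.prime₁
  haveI := c.prime₂
  haveI := hn.isPrime
  haveI : IsDedekindDomain (B ⧸ c.p₁) := isDedekindDomain_quotient_p₁ w x B hC c
  haveI : IsDedekindDomain (B ⧸ c.p₂) := isDedekindDomain_quotient_p₂ w x B hC c
  obtain ⟨d, hd, h1, h2, h3⟩ := Fermat.Agent.A2.H609.exists_pureAt_node (F := F)
    (w := algebraMap R B w) hm.ne' c.p₁ c.p₂ n c.inf_eq c.not_le₁₂ c.not_le₂₁ c.transversal h₁ h₂ u
    (hdiv_of_divisibleDiv w hC.hw B m u hdiv)
    (hs_of_constAt B c.p₁ u hs.1) (hs_of_constAt B c.p₂ u hs.2)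
  exact ⟨d, hd, h1, h2, h3⟩

end Fermat.Agent.A2.Alg.H132
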