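import Fermat.Agent.A2.H849.Hartogs
import Mathlib.RingTheory.DiscreteValuationRing.Basic

/-!
# A2 / ALG (helper132): the discrete valuation ring of a component of the special fibre

`B` a noetherian integrally closed domain with fraction field `F`, `w ∈ B`, `w ≠ 0`, `p` a prime
of `B` and `q` an ideal with `p ⊓ q = (w)`, `q ⊄ p` (in the application `p`, `q` are the two
components of the special fibre of a semistable chart).  Then `B_p` is a discrete valuation ring
with uniformiser `w`.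

* `exists_colon`   : `p = ((w) : c₀)` for some `c₀ ∈ q ∖ p`;
* `vertVal`        : the valuation subring `B_p ⊆ F`; `isLocDVR_vertVal`;
* `mem_vertVal_iff`, `mul_inv_mem_vertVal` (`𝔪 = w · B_p`), `inv_notMem_vertVal`;
* `exists_zpow_mul_unit` : every `t ≠ 0` in `F` is `w ^ n` times a unit of `B_p`.
-/

set_option autoImplicit false
set_option linter.unusedSectionVars false
set_option linter.style.haveILetI false

namespace Fermat.Agent.A2.Alg.H132

open Fermat.Agent.A2.H849

section Vert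

variable {B : Type*} [CommRing B] [IsDomain B] [IsNoetherianRing B] [IsIntegrallyClosed B]
variable (F : Type*) [Field F] [Algebra B F] [IsFractionRing B F]

/-- The hypotheses on a component `p` of the special fibre `w = 0`, with complementary
ideal `q`. -/
structure VertData (w : B) (p q : Ideal B) : Prop where
  prime : p.IsPrime
  w_ne : w ≠ 0
  not_le : ¬ q ≤ p
  inf_eq : p ⊓ q = Ideal.span {w}

variable {F}
variable {w : B} {p q : Ideal B}

theorem VertData.w_mem (h : VertData w p q) : w ∈ p :=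
  (inf_le_left : p ⊓ q ≤ p) (h.inf_eq ▸ Ideal.mem_span_singleton_self w)

theorem VertData.w_mem' (h : VertData w p q) : w ∈ q :=
  (inf_le_right : p ⊓ q ≤ q) (h.inf_eq ▸ Ideal.mem_span_singleton_self w)

/-- `p` is the colon ideal `(w) : c₀`. -/
theorem VertData.exists_colon (h : VertData w p q) :
    ∃ c₀ : B, c₀ ∈ q ∧ c₀ ∉ p ∧ ∀ r, r ∈ p ↔ w ∣ r * c₀ := by
  have hp := h.prime
  obtain ⟨c₀, hc₀q, hc₀p⟩ := Set.not_subset.1 h.not_le
  refine ⟨c₀, hc₀q, hc₀p, fun r => ⟨fun hr => ?_, fun hr => ?_⟩⟩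
  · have hmem : r * c₀ ∈ p ⊓ q := ⟨p.mul_mem_right _ hr, q.mul_mem_left _ hc₀q⟩
    rw [h.inf_eq] at hmem
    exact Ideal.mem_span_singleton.1 hmem
  · obtain ⟨t, ht⟩ := hr
    have : r * c₀ ∈ p := by rw [ht]; exact p.mul_mem_right _ h.w_mem
    exact (hp.mem_or_mem this).resolve_right hc₀p

theorem VertData.isDiscreteValuationRing_locAt (h : VertData w p q) :
    haveI := h.prime
    IsDiscreteValuationRing (locAt F p) := by
  haveI := h.prime
  obtain ⟨c₀, -, -, hc⟩ := h.exists_colon
  exact isDiscreteValuationRing_locAt_of_colon p w c₀ h.w_ne hc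

/-- The valuation subring `B_p` of `F`. -/
noncomputable def vertVal (h : VertData w p q) : ValuationSubring F :=
  haveI := h.prime
  haveI := h.isDiscreteValuationRing_locAt (F := F)
  locValuationSubring p (inferInstance : ValuationRing (locAt F p))

theorem isLocDVR_vertVal (h : VertData w p q) : IsLocDVR (vertVal (F := F) h) p := by
  haveI := h.prime
  exact isLocDVR_locValuationSubring p (h.isDiscreteValuationRing_locAt (F := F))

theorem mem_vertVal_iff (h : VertData w p q) (t : F) :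
    t ∈ vertVal (F := F) h ↔
      ∃ a s : B, s ∉ p ∧ t = algebraMap B F a * (algebraMap B F s)⁻¹ := by
  haveI := h.prime
  exact mem_locAt_iff p t

theorem algebraMap_mem_vertVal (h : VertData w p q) (b : B) :
    algebraMap B F b ∈ vertVal (F := F) h :=
  (isLocDVR_vertVal h).le b

theorem inv_mem_vertVal (h : VertData w p q) {s : B} (hs : s ∉ p) :
    (algebraMap B F s)⁻¹ ∈ vertVal (F := F) h :=
  (isLocDVR_vertVal h).inv_mem s hs

theorem inv_notMem_vertVal (h : VertData w p q) {r : B} (hr : r ∈ p) (hr0 : r ≠ 0) :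
    (algebraMap B F r)⁻¹ ∉ vertVal (F := F) h :=
  (isLocDVR_vertVal h).inv_not_mem r hr hr0

theorem algebraMap_ne_zero {b : B} (hb : b ≠ 0) : algebraMap B F b ≠ 0 := fun h0 =>
  hb (IsFractionRing.injective B F (by rw [h0, map_zero]))

/-- the contraction of the maximal ideal of `B_p` is `p`. -/
theorem mem_of_inv_notMem_vertVal (h : VertData w p q) {b : B}
    (hb : (algebraMap B F b)⁻¹ ∉ vertVal (F := F) h) : b ∈ p := by
  by_contra hbp
  exact hb (inv_mem_vertVal h hbp)

/-- `w` generates the maximal ideal of `B_p`. -/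
theorem mul_inv_mem_vertVal (h : VertData w p q) {t : F} (ht : t ∈ vertVal (F := F) h)
    (ht' : t⁻¹ ∉ vertVal (F := F) h) : t * (algebraMap B F w)⁻¹ ∈ vertVal (F := F) h := by
  have hp := h.prime
  obtain ⟨c₀, hc₀q, hc₀p, hc⟩ := h.exists_colon
  obtain ⟨a, s, hs, rfl⟩ := (mem_vertVal_iff h t).1 ht
  have hs0 : s ≠ 0 := fun h0 => hs (h0 ▸ p.zero_mem)
  have hsF : algebraMap B F s ≠ 0 := algebraMap_ne_zero hs0
  have hwF : algebraMap B F w ≠ 0 := algebraMap_ne_zero h.w_ne
  have hc₀0 : c₀ ≠ 0 := fun h0 => hc₀p (h0 ▸ p.zero_mem)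
  have hc₀F : algebraMap B F c₀ ≠ 0 := algebraMap_ne_zero hc₀0
  have hap : a ∈ p := by
    by_contra hap
    apply ht'
    rw [mem_vertVal_iff]
    refine ⟨s, a, hap, ?_⟩
    rw [mul_inv, inv_inv, mul_comm]
  obtain ⟨a', ha'⟩ := (hc a).1 hap
  rw [mem_vertVal_iff]
  refine ⟨a', s * c₀, fun hmem => (hp.mem_or_mem hmem).elim hs hc₀p, ?_⟩
  have e : algebraMap B F a * algebraMap B F c₀ = algebraMap B F w * algebraMap B F a' := by
    rw [← map_mul, ← map_mul, ha']
  rw [map_mul]
  field_simp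
  linear_combination e

/-- Every nonzero element of `F` is a power of `w` times a unit of `B_p`. -/
theorem exists_zpow_mul_unit (h : VertData w p q) {t : F} (ht : t ≠ 0) :
    ∃ n : ℤ, t * (algebraMap B F w) ^ n ∈ vertVal (F := F) h ∧
      (t * (algebraMap B F w) ^ n)⁻¹ ∈ vertVal (F := F) h := by
  have hwF : algebraMap B F w ≠ 0 := algebraMap_ne_zero h.w_ne
  set V := vertVal (F := F) h with hV
  haveI hdvr : IsDiscreteValuationRing V := (isLocDVR_vertVal h).dvr
  -- the element `w` of `V`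
  let wV : V := ⟨algebraMap B F w, algebraMap_mem_vertVal h w⟩
  have hwV0 : wV ≠ 0 := fun h0 => hwF (congrArg Subtype.val h0)
  have hwnu : ¬ IsUnit wV := by
    intro hu
    obtain ⟨u, hu⟩ := hu
    have h1 : ((u⁻¹ : Vˣ) : V) * wV = 1 := by rw [← hu]; exact Units.inv_mul u
    have h2 : (((u⁻¹ : Vˣ) : V) : F) * algebraMap B F w = 1 := congrArg Subtype.val h1
    have h3 : (algebraMap B F w)⁻¹ = (((u⁻¹ : Vˣ) : V) : F) :=
      (eq_inv_of_mul_eq_one_left h2).symm
    exact inv_notMem_vertVal h h.w_mem h.w_ne (h3 ▸ ((u⁻¹ : Vˣ) : V).2)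
  have hgen : ∀ y : V, ¬ IsUnit y → wV ∣ y := by
    intro y hy
    by_cases hy0 : y = 0
    · rw [hy0]; exact dvd_zero _
    have hyF : (y : F) ≠ 0 := fun h0 => hy0 (Subtype.ext h0)
    have hinv : (y : F)⁻¹ ∉ V := by
      intro hmem
      apply hy
      refine IsUnit.of_mul_eq_one ⟨(y : F)⁻¹, hmem⟩ ?_
      exact Subtype.ext (mul_inv_cancel₀ hyF)
    refine ⟨⟨(y : F) * (algebraMap B F w)⁻¹, mul_inv_mem_vertVal h y.2 hinv⟩, ?_⟩
    apply Subtype.ext
    show (y : F) = algebraMap B F w * ((y : F) * (algebraMap B F w)⁻¹)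
    field_simp
  have hirr : Irreducible wV := by
    refine ⟨hwnu, fun a b hab => ?_⟩
    by_contra hcon
    rw [not_or] at hcon
    obtain ⟨a', rfl⟩ := hgen a hcon.1
    obtain ⟨b', rfl⟩ := hgen b hcon.2
    have : wV * (1 - wV * (a' * b')) = 0 := by rw [mul_sub, mul_one]; nth_rw 1 [hab]; ring
    rcases mul_eq_zero.1 this with h0 | h0
    · exact hwV0 h0
    · apply hwnu
      refine IsUnit.of_mul_eq_one (a' * b') ?_
      rw [sub_eq_zero] at h0
      exact h0.symm
  -- integral case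
  have key : ∀ y : V, y ≠ 0 → ∃ n : ℕ, (y : F) * ((algebraMap B F w) ^ n)⁻¹ ∈ V ∧
      ((y : F) * ((algebraMap B F w) ^ n)⁻¹)⁻¹ ∈ V := by
    intro y hy
    obtain ⟨n, u, hu⟩ := IsDiscreteValuationRing.eq_unit_mul_pow_irreducible hy hirr
    refine ⟨n, ?_, ?_⟩
    · have e : (y : F) * ((algebraMap B F w) ^ n)⁻¹ = ((u : V) : F) := by
        have := congrArg Subtype.val hu
        simp only [MulMemClass.coe_mul, SubmonoidClass.coe_pow] at this
        rw [this]
        show ((u : V) : F) * (algebraMap B F w) ^ n * ((algebraMap B F w) ^ n)⁻¹ = _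
        field_simp
      rw [e]
      exact (u : V).2
    · have e : ((y : F) * ((algebraMap B F w) ^ n)⁻¹)⁻¹ = (((u⁻¹ : Vˣ) : V) : F) := by
        have := congrArg Subtype.val hu
        simp only [MulMemClass.coe_mul, SubmonoidClass.coe_pow] at this
        rw [this]
        have h1 : ((u : V) : F) * (((u⁻¹ : Vˣ) : V) : F) = 1 :=
          congrArg Subtype.val (Units.mul_inv u)
        have hu0 : ((u : V) : F) ≠ 0 := left_ne_zero_of_mul_eq_one h1
        show (((u : V) : F) * (algebraMap B F w) ^ n * ((algebraMap B F w) ^ n)⁻¹)⁻¹ = _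
        field_simp
        linear_combination -h1
      rw [e]
      exact ((u⁻¹ : Vˣ) : V).2
  rcases V.mem_or_inv_mem t with htV | htV
  · obtain ⟨n, h1, h2⟩ := key ⟨t, htV⟩ (fun h0 => ht (congrArg Subtype.val h0))
    refine ⟨-(n : ℤ), ?_, ?_⟩
    · rw [zpow_neg, zpow_natCast]; exact h1
    · rw [zpow_neg, zpow_natCast]; exact h2
  · obtain ⟨n, h1, h2⟩ := key ⟨t⁻¹, htV⟩
      (fun h0 => inv_ne_zero ht (congrArg Subtype.val h0))
    refine ⟨(n : ℤ), ?_, ?_⟩
    · rw [zpow_natCast]
      have e : t * algebraMap B F w ^ n = (t⁻¹ * ((algebraMap B F w) ^ n)⁻¹)⁻¹ := by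
        rw [mul_inv, inv_inv, inv_inv]
      rw [e]; exact h2
    · rw [zpow_natCast]
      have e : (t * algebraMap B F w ^ n)⁻¹ = t⁻¹ * ((algebraMap B F w) ^ n)⁻¹ := by
        rw [mul_inv]
      rw [e]; exact h1

end Vert

end Fermat.Agent.A2.Alg.H132
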